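/-
MLT / [L1] case (C), ORDINARY case (helper9): fork of `Lib/MLT/Fr3/Glue/Top.lean` (itself the `p = 3` fork of
`Lib/Ihara/Glue/Top.lean`) with the condition at `p` `IsOrdinaryAt p` (`p ∤ N`, S32) replaced by `IsOrdinaryAt p`
(`p ∥ N` and `ρbar` ordinary at `p`, S33).  Generated by a rename script: only the declarations depending on the
condition at `p` are repeated, with the prefix `jh`/`Jh` replaced by `kh`/`Kh`.
-/
import Mathlib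
import Fermat.Agent.Lib.Ihara.Glue.Main
import Fermat.Agent.Lib.MLT.Fr3.Glue.Main
import Fermat.Agent.Lib.Ihara.Glue.Rep
import Fermat.Agent.Lib.Ihara.Hm.ChiPart
import Fermat.Agent.Lib.MLT.Fr3.Hm.ChiPart
import Fermat.Agent.Lib.MLT.Fr3.Fr.Control
import Fermat.Agent.Lib.MLT.Fr3.Fr.Cyc
import Fermat.Agent.Lib.MLT.Fr3.Fr.Defs
import Fermat.Agent.Lib.MLT.Fr3.Fr.Free
import Fermat.Agent.Lib.MLT.Fr3.Fr.Ind
import Fermat.Agent.Lib.MLT.Fr3.Fr.Main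
import Fermat.Agent.Lib.MLT.Fr3.Fr.Ops
import Fermat.Agent.Lib.MLT.Fr3.Fr.Red
import Fermat.Agent.Lib.MLT.Fr3.Fr.ToolB
import Fermat.Agent.Lib.MLT.Fr3.Hm.Dia
import Fermat.Agent.Lib.MLT.Fr3.Hm.Part
import Fermat.Agent.Lib.MLT.Fr3.Hm.PartT
import Fermat.Agent.Lib.Ihara.Glue.Top
import Fermat.Agent.Lib.MLT.Fr3.Glue.Top
import Fermat.Agent.Lib.MLT.CO.I.Img.Rep
import Fermat.Agent.Lib.MLT.CO.I.Glue.Rep
import Fermat.Agent.Lib.MLT.CO.I.E.Main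
import Fermat.Agent.Lib.MLT.CO.I.Glue.Out
import Fermat.Agent.Lib.MLT.CO.I.E.Out
import Fermat.Agent.Lib.MLT.CO.I.Nf.FieldsChi
import Fermat.Agent.Lib.MLT.CO.I.Glue.Fields
import Fermat.Agent.Lib.MLT.CO.I.Glue.Hecke
import Fermat.Agent.Lib.MLT.CO.I.Sc.Out

set_option autoImplicit false
set_option linter.unusedSectionVars false
set_option linter.unusedVariables false
set_option linter.style.haveILetI false

open IsLocalRing Polynomial Fermat.Agent.S53Lib Fermat.Agent.TW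

namespace Fermat.Agent.Ihara

open Matrix MatrixGroups CongruenceSubgroup ModularCurve ModularCurve.Period
open Fermat.Agent.DS Fermat.Agent.T1 Fermat.Agent.T1G Fermat.Agent.T2

local notation "Qbar" => AlgebraicClosure ℚ
local notation "GQ" => (AlgebraicClosure ℚ ≃ₐ[ℚ] AlgebraicClosure ℚ)

section Top

attribute [local instance] dualNumberAlgebra
attribute [local instance] isLocalHom_algebraMap_dualNumber

variable (O : Type) [CommRing O] [IsDomain O] [IsDiscreteValuationRing O] [CharZero O]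
  [IsAdicComplete (IsLocalRing.maximalIdeal O) O] [Finite (ResidueField O)]
  (M : ℕ) [NeZero M] (hM : 6 ≤ M)
  (H : Subgroup (ZMod M)ˣ) (Ps : Set ℕ) (θ₀ : ℕ → O)
  {p : ℕ} (hL : JhfLevel p M H) (hpO : (p : O) ∈ IsLocalRing.maximalIdeal O)

include hL hpO in
/-- **[REP] + [MOD] on a stable quotient of the `θ₀`-part** -/
theorem khk_main {N' : ℕ} [NeZero N'] (hMN' : M ∣ N') {S : Finset ℕ}
    (hS : ∀ l : ℕ, l.Prime → l ∣ N' → l ∈ S) (hPs : ∀ l : ℕ, l.Prime → l ∉ S → l ∈ Ps)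
    (hpS : p ∈ S) (hpN' : p ∣ N' ∧ ¬ p ^ 2 ∣ N')
    (z : ℕ → (ZMod M)ˣ)
    (a₀ : CuspForm.heckeAlgebra N' 2 (↑S : Set ℕ) →+* Module.End O (IhfH O O M H))
    (ha₀ : ∀ (l : ℕ) (hl : l.Prime) (hlN' : ¬ l ∣ N') (hlS : l ∉ (↑S : Set ℕ)),
      a₀ (CuspForm.heckeAlgebra.T hl hlN' hlS) = ihtrOp H O O z l)
    {Y : Type*} [AddCommGroup Y] [Module O Y] [Nontrivial Y] [Module.IsTorsionFree O Y]
    (π : IhmPartT O M H Ps θ₀ →ₗ[O] Y) (hπ : Function.Surjective π)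
    (hπop : ∀ (ℓ : ℕ) (x : IhmPartT O M H Ps θ₀), π x = 0 →
      π (ihmPartTOp O M hM H Ps θ₀ ℓ x) = 0)
    (hπdia : ∀ (δ : (ZMod M)ˣ ⧸ H) (x : IhmPartT O M H Ps θ₀), π x = 0 →
      π (ihmPartTDia O M hM H Ps θ₀ δ x) = 0)
    (ρbar : ResidualGaloisRep (ResidueField O)) (habs : ρbar.IsAbsolutelyIrreducible)
    (hord : (GaloisRepAdic.ofResidualGaloisRep ρbar).IsOrdinaryAt p)
    (hfrob : ∀ (ℓ : ℕ), ℓ.Prime → ℓ ∉ S →
      ∀ P : ValuationSubring Qbar, P.LiesOverPrime ℓ → ∀ σ : GQ, P.IsFrobeniusAt σ ℓ →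
        LinearMap.charpoly (ρbar.ρ σ) =
          X ^ 2 - C (residue O (θ₀ ℓ)) * X + C ((ℓ : ResidueField O)))
    (b : Module.Basis (Fin 2) (ResidueField O) ρbar.V)
    (Smin : Finset ℕ) (hSmin : ∀ q ∈ Smin, q.Prime → q ≠ p → q ∣ N' ∧ ¬ q ^ 2 ∣ N') :
    ∃ (a : CuspForm.heckeAlgebra N' 2 (↑S : Set ℕ) →+* Module.End O Y)
      (θ' : CuspForm.heckeAlgebra N' 2 (↑S : Set ℕ) →+* ResidueField O)
      (hpart : ihdPart O a θ' = ⊤) (_ : Nontrivial ↥(ihdPart O a θ'))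
      (rA : GQ →* Matrix (Fin 2) (Fin 2) (IhdImg O a θ')) (hcts : MatCts (IhdImg O a θ') rA),
      -- the Hecke action
      (∀ (l : ℕ) (hl : l.Prime) (hlN' : ¬ l ∣ N') (hlS : l ∉ (↑S : Set ℕ))
        (x : IhmPartT O M H Ps θ₀),
        a (CuspForm.heckeAlgebra.T hl hlN' hlS) (π x) =
          π (ihmPartTOp O M hM H Ps θ₀ l
            (ihmPartTDia O M hM H Ps θ₀ ((z l : (ZMod M)ˣ) : (ZMod M)ˣ ⧸ H) x))) ∧
      (∀ (l : ℕ) (hl : l.Prime) (hlN' : ¬ l ∣ N') (hlS : l ∉ (↑S : Set ℕ)),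
        θ' (CuspForm.heckeAlgebra.T hl hlN' hlS) = residue O (θ₀ l)) ∧
      -- the commutant
      (∀ (f : Module.End O (IhmPartT O M H Ps θ₀)) (f' : Module.End O Y),
        (∀ x, f' (π x) = π (f x)) →
        (∀ ℓ, Commute f (ihmPartTOp O M hM H Ps θ₀ ℓ)) →
        (∀ δ, Commute f (ihmPartTDia O M hM H Ps θ₀ δ)) →
        ∀ t : IhdImg O a θ', Commute f' (ihiAct O a θ' hpart t)) ∧
      -- [REP]
      Function.Surjective (residue (IhdImg O a θ') ∘ algebraMap O (IhdImg O a θ')) ∧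
      IsStrictLift (𝒪 := O) (resMat ρbar b) rA ∧
      twCond O (fun A _ _ ρ => ρ.IsOrdinaryAt p) p Smin S (ofMat rA hcts) ∧
      IhgTraceDet (𝒪 := O) rA ∧
      (∀ (ℓ : ℕ) (hℓ : ℓ.Prime) (hℓN : ¬ ℓ ∣ N') (hℓS : ℓ ∉ (↑S : Set ℕ)),
        ∀ P : ValuationSubring Qbar, P.LiesOverPrime ℓ → ∀ σ : GQ, P.IsFrobeniusAt σ ℓ →
          ihiAct O a θ' hpart ((rA σ).trace) = a (CuspForm.heckeAlgebra.T hℓ hℓN hℓS)) ∧
      (∀ (ℓ : ℕ), ℓ.Prime → ℓ ≠ p → ∀ P : ValuationSubring Qbar, P.LiesOverPrime ℓ →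
        (∀ σ : GQ, P.IsFrobeniusAt σ ℓ → (rA σ).det = (ℓ : IhdImg O a θ')) ∧
        (∀ σ ∈ P.inertiaSubgroupIn ℚ, (rA σ).det = 1)) := by
  have hp : p.Prime := hL.prime
  have hp2 : p ≠ 2 := hL.odd
  obtain ⟨a, θ', haT, hθ', hpart, hcomm⟩ := jhk_exists_hom O M hM H Ps θ₀ hL hpO hMN'
    (S := (↑S : Set ℕ)) (fun l hl h => by exact_mod_cast hS l hl h)
    (fun l hl h => hPs l hl (by exact_mod_cast h)) z a₀ ha₀ π hπ hπop hπdia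
  haveI hnt : Nontrivial ↥(ihdPart O a θ') := ihk_nontrivial_part a hpart
  obtain ⟨rA, hcts, hres, hstrict, htw, htd, htr, hdet⟩ :=
    khk_rep_mod a hpart hp hp2 hpO hpS hS hpN' ρbar habs hord
      (fun ℓ hℓ hℓN hℓS P hP σ hσ => by
        rw [hθ' ℓ hℓ hℓN hℓS]
        exact hfrob ℓ hℓ (by exact_mod_cast hℓS) P hP σ hσ) b Smin hSmin
  refine ⟨a, θ', hpart, hnt, rA, hcts, haT, hθ', ?_, hres, hstrict, htw, htd, htr, hdet⟩
  intro f f' hff' hfop hfdia t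
  exact ihiAct_commute O a θ' hpart f' (fun s => hcomm f f' hff' hfop hfdia s) t

variable (Δ₁ : Subgroup ((ZMod M)ˣ ⧸ H)) (χ : Δ₁ →* O)

include hL hpO in
/-- **[REP] + [MOD] on helper1's `M^χ = IhmChiPart`**: the Hecke ring `IhdImg O a θ'` acts through
`ρM = ihiAct`, `ρM (tr rA (Frob_ℓ)) = T_ℓ ⟨z ℓ⟩` (`ihmChiOp`, `ihmChiDia`), and `ρM` commutes with the
diamond operators `ihmChiDia` and with every `ihmChiMap t` for `t` in the commutant -/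
theorem khk_main_chi {N' : ℕ} [NeZero N'] (hMN' : M ∣ N') {S : Finset ℕ}
    (hS : ∀ l : ℕ, l.Prime → l ∣ N' → l ∈ S) (hPs : ∀ l : ℕ, l.Prime → l ∉ S → l ∈ Ps)
    (hpS : p ∈ S) (hpN' : p ∣ N' ∧ ¬ p ^ 2 ∣ N')
    (z : ℕ → (ZMod M)ˣ)
    (a₀ : CuspForm.heckeAlgebra N' 2 (↑S : Set ℕ) →+* Module.End O (IhfH O O M H))
    (ha₀ : ∀ (l : ℕ) (hl : l.Prime) (hlN' : ¬ l ∣ N') (hlS : l ∉ (↑S : Set ℕ)),
      a₀ (CuspForm.heckeAlgebra.T hl hlN' hlS) = ihtrOp H O O z l)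
    [Nontrivial (IhmChiPart O M hM H Ps θ₀ Δ₁ χ)]
    [Module.IsTorsionFree O (IhmChiPart O M hM H Ps θ₀ Δ₁ χ)]
    (ρbar : ResidualGaloisRep (ResidueField O)) (habs : ρbar.IsAbsolutelyIrreducible)
    (hord : (GaloisRepAdic.ofResidualGaloisRep ρbar).IsOrdinaryAt p)
    (hfrob : ∀ (ℓ : ℕ), ℓ.Prime → ℓ ∉ S →
      ∀ P : ValuationSubring Qbar, P.LiesOverPrime ℓ → ∀ σ : GQ, P.IsFrobeniusAt σ ℓ →
        LinearMap.charpoly (ρbar.ρ σ) =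
          X ^ 2 - C (residue O (θ₀ ℓ)) * X + C ((ℓ : ResidueField O)))
    (b : Module.Basis (Fin 2) (ResidueField O) ρbar.V)
    (Smin : Finset ℕ) (hSmin : ∀ q ∈ Smin, q.Prime → q ≠ p → q ∣ N' ∧ ¬ q ^ 2 ∣ N') :
    ∃ (a : CuspForm.heckeAlgebra N' 2 (↑S : Set ℕ) →+*
          Module.End O (IhmChiPart O M hM H Ps θ₀ Δ₁ χ))
      (θ' : CuspForm.heckeAlgebra N' 2 (↑S : Set ℕ) →+* ResidueField O)
      (hpart : ihdPart O a θ' = ⊤) (_ : Nontrivial ↥(ihdPart O a θ'))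
      (rA : GQ →* Matrix (Fin 2) (Fin 2) (IhdImg O a θ')) (hcts : MatCts (IhdImg O a θ') rA),
      -- the Hecke action
      (∀ (l : ℕ) (hl : l.Prime) (hlN' : ¬ l ∣ N') (hlS : l ∉ (↑S : Set ℕ)),
        a (CuspForm.heckeAlgebra.T hl hlN' hlS) =
          ihmChiOp O M hM H Ps θ₀ Δ₁ χ l *
            ihmChiDia O M hM H Ps θ₀ Δ₁ χ ((z l : (ZMod M)ˣ) : (ZMod M)ˣ ⧸ H)) ∧
      (∀ (l : ℕ) (hl : l.Prime) (hlN' : ¬ l ∣ N') (hlS : l ∉ (↑S : Set ℕ)),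
        θ' (CuspForm.heckeAlgebra.T hl hlN' hlS) = residue O (θ₀ l)) ∧
      -- the commutant
      (∀ (δ : (ZMod M)ˣ ⧸ H) (t : IhdImg O a θ'),
        Commute (ihmChiDia O M hM H Ps θ₀ Δ₁ χ δ) (ihiAct O a θ' hpart t)) ∧
      (∀ (f : Module.End O (IhmPartT O M H Ps θ₀))
        (hf : ∀ g : Δ₁, Commute f (ihmPartTDia O M hM H Ps θ₀ g)),
        (∀ ℓ, Commute f (ihmPartTOp O M hM H Ps θ₀ ℓ)) →
        (∀ δ, Commute f (ihmPartTDia O M hM H Ps θ₀ δ)) →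
        ∀ t : IhdImg O a θ', Commute (ihmChiMap (ihmPartTDia O M hM H Ps θ₀) Δ₁ χ f hf)
          (ihiAct O a θ' hpart t)) ∧
      -- [REP]
      Function.Surjective (residue (IhdImg O a θ') ∘ algebraMap O (IhdImg O a θ')) ∧
      IsStrictLift (𝒪 := O) (resMat ρbar b) rA ∧
      twCond O (fun A _ _ ρ => ρ.IsOrdinaryAt p) p Smin S (ofMat rA hcts) ∧
      IhgTraceDet (𝒪 := O) rA ∧
      (∀ (ℓ : ℕ) (hℓ : ℓ.Prime) (hℓN : ¬ ℓ ∣ N') (hℓS : ℓ ∉ (↑S : Set ℕ)),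
        ∀ P : ValuationSubring Qbar, P.LiesOverPrime ℓ → ∀ σ : GQ, P.IsFrobeniusAt σ ℓ →
          ihiAct O a θ' hpart ((rA σ).trace) = a (CuspForm.heckeAlgebra.T hℓ hℓN hℓS)) ∧
      (∀ (ℓ : ℕ), ℓ.Prime → ℓ ≠ p → ∀ P : ValuationSubring Qbar, P.LiesOverPrime ℓ →
        (∀ σ : GQ, P.IsFrobeniusAt σ ℓ → (rA σ).det = (ℓ : IhdImg O a θ')) ∧
        (∀ σ ∈ P.inertiaSubgroupIn ℚ, (rA σ).det = 1)) := by
  have hker : ∀ (f : Module.End O (IhmPartT O M H Ps θ₀))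
      (hf : ∀ g : Δ₁, Commute f (ihmPartTDia O M hM H Ps θ₀ g)) (x : IhmPartT O M H Ps θ₀),
      ihmChiPartMk O M hM H Ps θ₀ Δ₁ χ x = 0 → ihmChiPartMk O M hM H Ps θ₀ Δ₁ χ (f x) = 0 := by
    intro f hf x hx
    have h1 : x ∈ ihmChiSub (ihmPartTDia O M hM H Ps θ₀) Δ₁ χ :=
      (Submodule.Quotient.mk_eq_zero _).mp hx
    exact (Submodule.Quotient.mk_eq_zero _).mpr
      (ihmChiSub_le_comap (ihmPartTDia O M hM H Ps θ₀) Δ₁ χ f hf h1)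
  have hdiacomm : ∀ δ δ' : (ZMod M)ˣ ⧸ H,
      Commute (ihmPartTDia O M hM H Ps θ₀ δ) (ihmPartTDia O M hM H Ps θ₀ δ') :=
    fun δ δ' => ihm_rho_commute (ihm_quot_comm M H) (ihmPartTDia O M hM H Ps θ₀) δ δ'
  obtain ⟨a, θ', hpart, hnt, rA, hcts, haT, hθ', hcomm, hrest⟩ :=
    khk_main O M hM H Ps θ₀ hL hpO hMN' hS hPs hpS hpN' z a₀ ha₀
      (ihmChiPartMk O M hM H Ps θ₀ Δ₁ χ) (ihmChiPartMk_surjective O M hM H Ps θ₀ Δ₁ χ)
      (fun ℓ x hx => hker _ (fun g => ihmPartTOp_commute_dia O M hM H Ps θ₀ ℓ g) x hx)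
      (fun δ x hx => hker _ (fun g => hdiacomm δ g) x hx)
      ρbar habs hord hfrob b Smin hSmin
  refine ⟨a, θ', hpart, hnt, rA, hcts, ?_, hθ', ?_, ?_, hrest⟩
  · intro l hl hlN' hlS
    refine LinearMap.ext fun y => ?_
    obtain ⟨x, rfl⟩ := ihmChiPartMk_surjective O M hM H Ps θ₀ Δ₁ χ y
    rw [haT l hl hlN' hlS, Module.End.mul_apply, ihmChiDia_mk, ihmChiOp_mk]
  · intro δ t
    refine hcomm (ihmPartTDia O M hM H Ps θ₀ δ) _ (fun x => ihmChiDia_mk O M hM H Ps θ₀ Δ₁ χ δ x)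
      (fun ℓ => (ihmPartTOp_commute_dia O M hM H Ps θ₀ ℓ δ).symm) (fun δ' => hdiacomm δ δ') t
  · intro f hf hfop hfdia t
    exact hcomm f _ (fun x => rfl) hfop hfdia t

end Top

end Fermat.Agent.Ihara
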