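/-
MLT / [L1] case (C), ORDINARY case (helper9): fork of `Lib/MLT/Fr3/Glue/Out.lean` (itself the `p = 3` fork of
`Lib/Ihara/Glue/Out.lean`) with the condition at `p` `IsOrdinaryAt p` (`p ∤ N`, S32) replaced by `IsOrdinaryAt p`
(`p ∥ N` and `ρbar` ordinary at `p`, S33).  Generated by a rename script: only the declarations depending on the
condition at `p` are repeated, with the prefix `jh`/`Jh` replaced by `kh`/`Kh`.
-/
import Mathlib
import Fermat.Agent.Lib.Ihara.Glue.Top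
import Fermat.Agent.Lib.MLT.Fr3.Glue.Top
import Fermat.Agent.Lib.MLT.CO.J.Glue.Top
import Fermat.Agent.Lib.MLT.Fr3.Fr.Control
import Fermat.Agent.Lib.MLT.Fr3.Fr.Cyc
import Fermat.Agent.Lib.MLT.Fr3.Fr.Defs
import Fermat.Agent.Lib.MLT.Fr3.Fr.Free
import Fermat.Agent.Lib.MLT.Fr3.Fr.Ind
import Fermat.Agent.Lib.MLT.Fr3.Fr.Main
import Fermat.Agent.Lib.MLT.Fr3.Fr.Ops
import Fermat.Agent.Lib.MLT.Fr3.Fr.Red
import Fermat.Agent.Lib.MLT.Fr3.Fr.ToolB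
import Fermat.Agent.Lib.MLT.Fr3.Glue.Main
import Fermat.Agent.Lib.MLT.Fr3.Hm.ChiPart
import Fermat.Agent.Lib.MLT.Fr3.Hm.Dia
import Fermat.Agent.Lib.MLT.Fr3.Hm.Part
import Fermat.Agent.Lib.MLT.Fr3.Hm.PartT
import Fermat.Agent.Lib.Ihara.Glue.Out
import Fermat.Agent.Lib.MLT.Fr3.Glue.Out
import Fermat.Agent.Lib.MLT.CO.I.Img.Rep
import Fermat.Agent.Lib.MLT.CO.I.Glue.Rep
import Fermat.Agent.Lib.MLT.CO.I.E.Main
import Fermat.Agent.Lib.MLT.CO.I.Glue.Out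
import Fermat.Agent.Lib.MLT.CO.I.E.Out
import Fermat.Agent.Lib.MLT.CO.I.Nf.FieldsChi
import Fermat.Agent.Lib.MLT.CO.I.Glue.Fields
import Fermat.Agent.Lib.MLT.CO.I.Glue.Hecke
import Fermat.Agent.Lib.MLT.CO.I.Sc.Out

set_option autoImplicit false
set_option linter.unusedSectionVars false
set_option linter.unusedVariables false
set_option linter.style.haveILetI false

open IsLocalRing Polynomial Fermat.Agent.S53Lib Fermat.Agent.TW

namespace Fermat.Agent.Ihara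

open Matrix MatrixGroups CongruenceSubgroup ModularCurve ModularCurve.Period
open Fermat.Agent.DS Fermat.Agent.T1 Fermat.Agent.T1G Fermat.Agent.T2

local notation "Qbar" => AlgebraicClosure ℚ
local notation "GQ" => (AlgebraicClosure ℚ ≃ₐ[ℚ] AlgebraicClosure ℚ)

section Out

attribute [local instance] dualNumberAlgebra
attribute [local instance] isLocalHom_algebraMap_dualNumber

variable (O : Type) [CommRing O] [IsDomain O] [IsDiscreteValuationRing O] [CharZero O]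
  [IsAdicComplete (IsLocalRing.maximalIdeal O) O] [Finite (ResidueField O)]
  (M : ℕ) [NeZero M] (hM : 6 ≤ M)
  (H : Subgroup (ZMod M)ˣ) (Ps : Set ℕ) (θ₀ : ℕ → O)
  (Δ₁ : Subgroup ((ZMod M)ˣ ⧸ H)) (χ : Δ₁ →* O)

variable {p : ℕ} (hL : JhfLevel p M H) (hpO : (p : O) ∈ IsLocalRing.maximalIdeal O)

include hL hpO in
/-- **`khk_main_chi` with the conclusion packaged as `KhkOut`** -/
theorem khk_main_chi' {N' : ℕ} [NeZero N'] (hMN' : M ∣ N') {S : Finset ℕ}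
    (hS : ∀ l : ℕ, l.Prime → l ∣ N' → l ∈ S) (hPs : ∀ l : ℕ, l.Prime → l ∉ S → l ∈ Ps)
    (hpS : p ∈ S) (hpN' : p ∣ N' ∧ ¬ p ^ 2 ∣ N')
    (z : ℕ → (ZMod M)ˣ)
    (a₀ : CuspForm.heckeAlgebra N' 2 (↑S : Set ℕ) →+* Module.End O (IhfH O O M H))
    (ha₀ : ∀ (l : ℕ) (hl : l.Prime) (hlN' : ¬ l ∣ N') (hlS : l ∉ (↑S : Set ℕ)),
      a₀ (CuspForm.heckeAlgebra.T hl hlN' hlS) = ihtrOp H O O z l)
    [Nontrivial (IhmChiPart O M hM H Ps θ₀ Δ₁ χ)]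
    [Module.IsTorsionFree O (IhmChiPart O M hM H Ps θ₀ Δ₁ χ)]
    (ρbar : ResidualGaloisRep (ResidueField O)) (habs : ρbar.IsAbsolutelyIrreducible)
    (hord : (GaloisRepAdic.ofResidualGaloisRep ρbar).IsOrdinaryAt p)
    (hfrob : ∀ (ℓ : ℕ), ℓ.Prime → ℓ ∉ S →
      ∀ P : ValuationSubring Qbar, P.LiesOverPrime ℓ → ∀ σ : GQ, P.IsFrobeniusAt σ ℓ →
        LinearMap.charpoly (ρbar.ρ σ) =
          X ^ 2 - C (residue O (θ₀ ℓ)) * X + C ((ℓ : ResidueField O)))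
    (b : Module.Basis (Fin 2) (ResidueField O) ρbar.V)
    (Smin : Finset ℕ) (hSmin : ∀ q ∈ Smin, q.Prime → q ≠ p → q ∣ N' ∧ ¬ q ^ 2 ∣ N') :
    ∃ (a : CuspForm.heckeAlgebra N' 2 (↑S : Set ℕ) →+*
          Module.End O (IhmChiPart O M hM H Ps θ₀ Δ₁ χ))
      (θ' : CuspForm.heckeAlgebra N' 2 (↑S : Set ℕ) →+* ResidueField O)
      (hpart : ihdPart O a θ' = ⊤) (_ : Nontrivial ↥(ihdPart O a θ'))
      (rA : GQ →* Matrix (Fin 2) (Fin 2) (IhdImg O a θ')) (hcts : MatCts (IhdImg O a θ') rA),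
      KhkOut O M hM H Ps θ₀ Δ₁ χ z p ρbar b Smin a θ' hpart rA hcts := by
  obtain ⟨a, θ', hpart, hnt, rA, hcts, h1, h2, h3, h4, h5, h6, h7, h8, h9, h10⟩ :=
    khk_main_chi O M hM H Ps θ₀ hL hpO Δ₁ χ hMN' hS hPs hpS hpN' z a₀ ha₀ ρbar habs hord hfrob b Smin
      hSmin
  exact ⟨a, θ', hpart, hnt, rA, hcts, ⟨h1, h2, h3, h4, h5, h6, h7, h8, h9, h10⟩⟩

end Out

end Fermat.Agent.Ihara
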