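/-
MLT / [L1] case (C), ORDINARY case (helper9): fork of `Lib/MLT/Fr3/Glue/Hecke.lean` (itself the `p = 3` fork of
`Lib/Ihara/Glue/Hecke.lean`) with the condition at `p` `IsOrdinaryAt p` (`p ∤ N`, S32) replaced by `IsOrdinaryAt p`
(`p ∥ N` and `ρbar` ordinary at `p`, S33).  Generated by a rename script: only the declarations depending on the
condition at `p` are repeated, with the prefix `jh`/`Jh` replaced by `kh`/`Kh`.
-/
import Mathlib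
import Fermat.Agent.Lib.Ihara.Glue.Out
import Fermat.Agent.Lib.MLT.Fr3.Glue.Out
import Fermat.Agent.Lib.MLT.CO.J.Glue.Out
import Fermat.Agent.Lib.Ihara.Asm.Level
import Fermat.Agent.Lib.Ihara.Grp.Compl
import Fermat.Agent.Lib.Ihara.Grp.Level
import Fermat.Agent.Lib.MLT.Fr3.Grp.Level
import Fermat.Agent.Lib.Ihara.Grp.Tw
import Fermat.Agent.Lib.Ihara.Hm.Lvl
import Fermat.Agent.Lib.MLT.Fr3.Hm.Lvl
import Fermat.Agent.Lib.Ihara.Tw.ChainHecke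
import Fermat.Agent.Lib.MLT.Fr3.Fr.Control
import Fermat.Agent.Lib.MLT.Fr3.Fr.Cyc
import Fermat.Agent.Lib.MLT.Fr3.Fr.Defs
import Fermat.Agent.Lib.MLT.Fr3.Fr.Free
import Fermat.Agent.Lib.MLT.Fr3.Fr.Ind
import Fermat.Agent.Lib.MLT.Fr3.Fr.Main
import Fermat.Agent.Lib.MLT.Fr3.Fr.Ops
import Fermat.Agent.Lib.MLT.Fr3.Fr.Red
import Fermat.Agent.Lib.MLT.Fr3.Fr.ToolB
import Fermat.Agent.Lib.MLT.Fr3.Glue.Main
import Fermat.Agent.Lib.MLT.Fr3.Glue.Top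
import Fermat.Agent.Lib.MLT.CO.J.Glue.Top
import Fermat.Agent.Lib.MLT.Fr3.Hm.ChiPart
import Fermat.Agent.Lib.MLT.Fr3.Hm.Ctrl
import Fermat.Agent.Lib.MLT.Fr3.Hm.Dia
import Fermat.Agent.Lib.MLT.Fr3.Hm.Nil
import Fermat.Agent.Lib.MLT.Fr3.Hm.Part
import Fermat.Agent.Lib.MLT.Fr3.Hm.PartT
import Fermat.Agent.Lib.MLT.Fr3.Hm.Rank
import Fermat.Agent.Lib.MLT.Fr3.Hm.Top
import Fermat.Agent.Lib.Ihara.Glue.Hecke
import Fermat.Agent.Lib.MLT.Fr3.Glue.Hecke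
import Fermat.Agent.Lib.MLT.CO.I.Img.Rep
import Fermat.Agent.Lib.MLT.CO.I.Glue.Rep
import Fermat.Agent.Lib.MLT.CO.I.E.Main
import Fermat.Agent.Lib.MLT.CO.I.Glue.Out
import Fermat.Agent.Lib.MLT.CO.I.E.Out
import Fermat.Agent.Lib.MLT.CO.I.Nf.FieldsChi
import Fermat.Agent.Lib.MLT.CO.I.Glue.Fields
import Fermat.Agent.Lib.MLT.CO.I.Glue.Hecke
import Fermat.Agent.Lib.MLT.CO.I.Sc.Out

set_option autoImplicit false
set_option linter.unusedSectionVars false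
set_option linter.unusedVariables false
set_option linter.style.haveILetI false

open IsLocalRing Polynomial Fermat.Agent.S53Lib Fermat.Agent.TW ExtCitation

namespace Fermat.Agent.Ihara

open Matrix MatrixGroups CongruenceSubgroup ModularCurve ModularCurve.Period
open Fermat.Agent.DS Fermat.Agent.T1 Fermat.Agent.T1G Fermat.Agent.T2

local notation "Qbar" => AlgebraicClosure ℚ
local notation "GQ" => (AlgebraicClosure ℚ ≃ₐ[ℚ] AlgebraicClosure ℚ)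

section Core

variable (O : Type) [CommRing O] [IsDomain O] [IsDiscreteValuationRing O] [CharZero O]
  [IsAdicComplete (IsLocalRing.maximalIdeal O) O] [Finite (ResidueField O)]
  (M : ℕ) [NeZero M] (hM : 6 ≤ M)
  (H : Subgroup (ZMod M)ˣ) (Ps : Set ℕ) (θ₀ : ℕ → O)
  (Δ₁ : Subgroup ((ZMod M)ˣ ⧸ H)) (χ : Δ₁ →* O)

end Core

section Concrete

variable (O : Type) [CommRing O] [IsDomain O] [IsDiscreteValuationRing O] [CharZero O]
  [IsAdicComplete (IsLocalRing.maximalIdeal O) O] [Finite (ResidueField O)]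
  (p : ℕ) [Fact p.Prime] (M : ℕ) [NeZero M] (hM : 6 ≤ M)
  {r : ℕ} {Tc : Finset Nat.Primes} {qv : Fin r → ℕ}
  (h : IhqData M (ihqPrimes Tc qv) (ihqOrders Tc qv p))
  (Ps : Set ℕ) (θ : ℕ → O) (χ : ↥(ihqD1 h) →* O)

/-- **the tuple `IhaHecke` at the Taylor–Wiles set `qv`, level `n`**: `H = ker κ` (helper9),
`M^χ = IhmChiPart` free of rank `d` over `O[Δ₂]` (helper1), Hecke ring `IhdImg O a θ'` and its
representation (`khk_main_chi'`); the remaining fields are hypotheses on the output `KhkOut`. -/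
theorem khk_hecke (hp5 : Jh5 p M) (hpO : (p : O) ∈ IsLocalRing.maximalIdeal O)
    (hMsq : Squarefree M)
    -- the composite twist and the level of the Hecke algebra
    {Rl : List ℕ} {k : ℕ → ℕ} (hyp : IhtcHyp M (ihqKappa h).ker Rl k) (hne : Rl ≠ [])
    {N' : ℕ} [NeZero N'] (hN' : N' = M * Rl.prod)
    (Smin : Finset ℕ) {S : Finset ℕ} (hSeq : S = Smin ∪ ihgNat Tc ∪ Finset.univ.image qv)
    (hS : ∀ l : ℕ, l.Prime → l ∣ N' → l ∈ S) (hPs : ∀ l : ℕ, l.Prime → l ∉ S → l ∈ Ps)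
    (hpSmin : p ∈ Smin) (hpN' : p ∣ N' ∧ ¬ p ^ 2 ∣ N')
    (hSmin : ∀ q ∈ Smin, q.Prime → q ≠ p → q ∣ N' ∧ ¬ q ^ 2 ∣ N')
    -- the residual representation
    (ρbar : ResidualGaloisRep (ResidueField O)) (habs : ρbar.IsAbsolutelyIrreducible)
    (hord : (GaloisRepAdic.ofResidualGaloisRep ρbar).IsOrdinaryAt p)
    (hfrob : ∀ (ℓ : ℕ), ℓ.Prime → ℓ ∉ S →
      ∀ P : ValuationSubring Qbar, P.LiesOverPrime ℓ → ∀ σ : GQ, P.IsFrobeniusAt σ ℓ →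
        LinearMap.charpoly (ρbar.ρ σ) =
          X ^ 2 - C (residue O (θ ℓ)) * X + C ((ℓ : ResidueField O)))
    (b : Module.Basis (Fin 2) (ResidueField O) ρbar.V)
    -- (B) [LVL]
    {ℓ₀ : ℕ} (hℓ₀ : ℓ₀.Prime) (hℓ₀M : ¬ ℓ₀ ∣ M) (hℓ₀Ps : ℓ₀ ∈ Ps)
    (hθ : IsUnit (θ ℓ₀ - ((ℓ₀ : O) + 1)))
    (N : ℕ) [NeZero N] (Q : List ℕ) (hMQ : M = Q.foldl (· * ·) N) (hnd : Q.Nodup)
    (hQ : ∀ q ∈ Q, q.Prime ∧ ¬ q ∣ N) (hPsQ : ∀ q ∈ Q, q ∈ Ps) (bq : ℕ → O)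
    (hθQ : ∀ q ∈ Q, θ q * bq q = ((q : ℕ) : O) ∧ IsUnit (θ q) ∧ IsUnit (θ q - bq q) ∧
      IsUnit (1 - θ q ^ 2))
    (d : ℕ) (hd : Module.finrank O ↥(ih4Part O N Ps (ih4Shift O θ bq Q)) = d) (hd0 : 0 < d)
    -- the level `n`
    (n : ℕ) (hqn : ∀ i, p ^ (n + 1) ∣ qv i - 1)
    -- the places at `Tc`
    (φv σv : Nat.Primes → GQ)
    (hTcp : ∀ v : ↥Tc, ((v : Nat.Primes) : ℕ) ≠ p)
    (hφv : ∀ v ∈ Tc, (primeLocalPlace v).IsFrobeniusAt (φv v) (v : ℕ))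
    (hσv : ∀ v ∈ Tc, σv v ∈ (primeLocalPlace v).inertiaSubgroupIn ℚ)
    (ϖ : O) (μ : ↥Tc → Finset Oˣ) (cs : ↥Tc → Oˣ) (q₀ : ↥Tc)
    -- the remaining fields, for every output of `khk_main_chi'`
    (hTC : ∀ (a : CuspForm.heckeAlgebra N' 2 (↑S : Set ℕ) →+*
          Module.End O (IhmChiPart O M hM (ihqKappa h).ker Ps θ (ihqD1 h) χ))
        (θ' : CuspForm.heckeAlgebra N' 2 (↑S : Set ℕ) →+* ResidueField O)
        (hpart : ihdPart O a θ' = ⊤) [Nontrivial ↥(ihdPart O a θ')]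
        (rA : GQ →* Matrix (Fin 2) (Fin 2) (IhdImg O a θ')) (hcts : MatCts (IhdImg O a θ') rA),
        KhkOut O M hM (ihqKappa h).ker Ps θ (ihqD1 h) χ (ihtcZ M Rl k) p ρbar b Smin a θ' hpart rA
          hcts →
        ∀ v : ↥Tc, ∏ ζ ∈ μ v, ((rA (σv v)).trace -
            algebraMap O (IhdImg O a θ') ((ζ : O) + ((ζ⁻¹ : Oˣ) : O))) = 0 ∧
          rA (φv v) * rA (σv v) = rA (σv v) * rA (φv v))
    (hAQ : ∀ (a : CuspForm.heckeAlgebra N' 2 (↑S : Set ℕ) →+*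
          Module.End O (IhmChiPart O M hM (ihqKappa h).ker Ps θ (ihqD1 h) χ))
        (θ' : CuspForm.heckeAlgebra N' 2 (↑S : Set ℕ) →+* ResidueField O)
        (hpart : ihdPart O a θ' = ⊤) [Nontrivial ↥(ihdPart O a θ')]
        (rA : GQ →* Matrix (Fin 2) (Fin 2) (IhdImg O a θ')) (hcts : MatCts (IhdImg O a θ') rA),
        KhkOut O M hM (ihqKappa h).ker Ps θ (ihqD1 h) χ (ihtcZ M Rl k) p ρbar b Smin a θ' hpart rA
          hcts →
        ∀ i : Fin r, ∃ aq : IhdImg O a θ', aq ^ (p ^ padicValNat p (qv i - 1)) = 1 ∧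
          (∀ v, ∃ u, ihiAct O a θ' hpart aq v - v
            = ihmChiDia O M hM (ihqKappa h).ker Ps θ (ihqD1 h) χ
                (((ihqD2Equiv h).symm (ihqGen _ i) : ↥(ihqD2 h)) :
                  (ZMod M)ˣ ⧸ (ihqKappa h).ker) u - u) ∧
          (∀ v, (∑ j ∈ Finset.range p,
              ihmChiDia O M hM (ihqKappa h).ker Ps θ (ihqD1 h) χ
                (((ihqD2Equiv h).symm (ihqGen _ i) : ↥(ihqD2 h)) :
                  (ZMod M)ˣ ⧸ (ihqKappa h).ker) ^ j :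
                Module.End O (IhmChiPart O M hM (ihqKappa h).ker Ps θ (ihqD1 h) χ)) v = 0 →
            ihiAct O a θ' hpart aq v = v → v = 0))
    (hE : ∀ (a : CuspForm.heckeAlgebra N' 2 (↑S : Set ℕ) →+*
          Module.End O (IhmChiPart O M hM (ihqKappa h).ker Ps θ (ihqD1 h) χ))
        (θ' : CuspForm.heckeAlgebra N' 2 (↑S : Set ℕ) →+* ResidueField O)
        (hpart : ihdPart O a θ' = ⊤) [Nontrivial ↥(ihdPart O a θ')]
        (rA : GQ →* Matrix (Fin 2) (Fin 2) (IhdImg O a θ')) (hcts : MatCts (IhdImg O a θ') rA),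
        KhkOut O M hM (ihqKappa h).ker Ps θ (ihqD1 h) χ (ihtcZ M Rl k) p ρbar b Smin a θ' hpart rA
          hcts →
        ∀ v, ∃ v', ihiAct O a θ' hpart ((rA (φv q₀)).trace -
          algebraMap O (IhdImg O a θ') ((cs q₀ : O) * (1 + (((q₀ : Nat.Primes) : ℕ) : O)))) v
            = ϖ • v') :
    IhaHecke p ρbar b (fun _ _ _ ρ => ρ.IsOrdinaryAt p) Smin Tc φv σv ϖ μ cs q₀ r d qv n := by
  classical
  have hp : p.Prime := Fact.out
  subst hd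
  -- (A) the level structure
  have hL : JhfLevel p M (ihqKappa h).ker := jhq_level hp hp5 hMsq h (ihqOrders_pow Tc qv)
  haveI hnz : ∀ i : Fin r, NeZero (p ^ padicValNat p (qv i - 1)) := fun i => h.neZero (Sum.inr i)
  -- (B) freeness
  obtain ⟨w, -, -, hχ⟩ := jhm_lvl_free O M hM (ihqKappa h).ker Ps θ hL hpO hℓ₀ hℓ₀M hℓ₀Ps hθ N Q
    hMQ hnd hQ hPsQ bq hθQ
  obtain ⟨b', hb'⟩ := hχ (ihqD1 h) χ (ihqD2 h) (ihqD_isCompl h)
  haveI : Module.Free O (IhmChiPart O M hM (ihqKappa h).ker Ps θ (ihqD1 h) χ) :=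
    Module.Free.of_basis b'
  haveI : Nontrivial (IhmChiPart O M hM (ihqKappa h).ker Ps θ (ihqD1 h) χ) :=
    nontrivial_of_ne _ _ (b'.ne_zero (⟨0, hd0⟩, 1))
  -- (C) the twisted Hecke action
  have hMN' : M ∣ N' := hN' ▸ Dvd.intro _ rfl
  obtain ⟨a₀, ha₀⟩ := ihtc_exists_hom hyp hne hN' O (↑S : Set ℕ)
    (fun l hl hlN' => by exact_mod_cast hS l hl hlN')
  -- (K)
  obtain ⟨a, θ', hpart, hnt, rA, hcts, out⟩ := khk_main_chi' O M hM (ihqKappa h).ker Ps θ (ihqD1 h)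
    χ hL hpO hMN' hS hPs
    (hSeq ▸ Finset.mem_union_left _ (Finset.mem_union_left _ hpSmin)) hpN' (ihtcZ M Rl k) a₀ ha₀
    ρbar habs hord hfrob b Smin hSmin
  refine khk_hecke_of_out O M hM (ihqKappa h).ker Ps θ (ihqD1 h) χ p (ihtcZ M Rl k) ρbar b Smin Tc
    φv σv ϖ μ cs q₀ r _ qv n hSeq a θ' hpart rA hcts out hTcp hφv hσv (ihqD2 h)
    (IhqDelta (fun i : Fin r => p ^ padicValNat p (qv i - 1))) (ihqD2Equiv h) (ihqGen _)
    (fun i => padicValNat p (qv i - 1)) ?_ (ihq_closure_gen _) (fun Y _ y hy => ihq_univ _ y hy)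
    (fun j => ihmChiPartMk O M hM (ihqKappa h).ker Ps θ (ihqD1 h) χ (w j)) b' hb'
    (hTC a θ' hpart rA hcts out) (hAQ a θ' hpart rA hcts out) (hE a θ' hpart rA hcts out)
  intro i
  have h1 : n + 1 ≤ padicValNat p (qv i - 1) :=
    ihq_le_padicValNat hp (h.prime (Sum.inr i)) (hqn i)
  exact ⟨by omega, by omega, ihq_orderOf_gen _ i⟩

end Concrete

end Fermat.Agent.Ihara
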